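/-
GATE-B / B9 PROVIDER, `p`-NEW (strict-ordinary) branch, group **G3** (helper32; SO twin of helper59's
`ProviderFlat/G3`): **the surjection `ψ : R_Q ↠ T_Q`** for the FRAMED deformation problem
`framedCond p (strictOrdinaryCondition 𝒪 p) Smin Su Q`, at a level `N' p` with `p ∥ N' p`.

`exists_psi_strict` : `T_Q` a complete Noetherian local `𝒪`-algebra with residue field that of `𝒪`,
generated over `𝒪` by a residually-`θ` Hecke hom `tw : heckeAlgebra (N' p) 2 S →+* T_Q`; `ρbar`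
absolutely irreducible, ORDINARY at `p` (`hordbar`), with the Eichler–Shimura characteristic
polynomials of `θ`; the ring-level annihilator statement

  `(hann)` : a Hecke operator `t₀ ∈ 𝒪 ⊗ 𝕋` killing `𝒪 ⊗ LamNew` has `twO tw t₀ = 0` in `T_Q`

(GB-PNEW: helper44 (ANN) + helper15 (HC) + (N3) at `M / p`).  Then for EVERY deformation datum `DQ`
of the framed strict-ordinary problem there are a SURJECTIVE local `𝒪`-algebra hom `ψ : DQ.R → T_Q`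
and `ρ_Q : GaloisRepAdic T_Q` with `DQ.ρ ⊗_ψ T_Q ≅ ρ_Q`, the Frobenius characteristic polynomials
`X² - tw(T_ℓ) X + ℓ`, `det ρ_Q` cyclotomic, `ρ_Q` unipotent on inertia at the primes of `Sun`, and
residual representation `ρbar ⊗ k_{T_Q}` (same record as helper59's `ProviderFlat/G3`).

Chain: helper36 `DatumOfRhobar.exists_datum` (datum on `Tloc 𝒪 θ`, unramified outside `N' p`) ⟹
helper39 `GalPkgSO.exists_galRep_strict_of_ann` with `Λ' := LamNew`, `hY := ThetaNew.hY_lamNew`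
(STRICTQ: strictness of the PUSHED representation only) ⟹ the type `framedCond` of the pushed
representation ⟹ `PsiTQPush.exists_psi_of_type`.

`exists_psi_TQ_strict` : the same over helper12's image ring `ImageRing.TQ 𝒪 θ tw` of an
`End`-valued Hecke action with `LocHyp`, the binder being the MODULE-level `(hAnn)`
(`twO 𝒪 tw t₀ m = 0` for all `m : M`).
-/
import Fermat.Agent.GB.B4.Datum.PsiTQPush
import Fermat.Agent.GB.B10.L.GalPkgSOImg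
import Fermat.Agent.GB.B10.L.StrictQNew
import Fermat.Agent.GB.Def.FramedNodes

set_option autoImplicit false
set_option linter.style.haveILetI false
set_option linter.unusedSectionVars false
set_option linter.unusedVariables false

noncomputable section

namespace Fermat.Agent.GB.B9.ProviderNew.G3

open TensorProduct CuspForm IsLocalRing Polynomial GaloisRep
open Fermat.Agent.GK.AL
open Fermat.Agent.GB.B4.Datum.Carrier Fermat.Agent.GB.B4.Datum.ImageRing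
open Fermat.Agent.GB.B4.Datum.Push Fermat.Agent.GB.Def.FramedNodes
open Fermat.Agent.GB.B10.KumLevelHecke Fermat.Agent.GB.B10.L.NewInst
open Fermat.Agent.GB.B10.L.ThetaNew Fermat.Agent.GB.B10.L.StrictQNew

local notation "GQ" => (AlgebraicClosure ℚ ≃ₐ[ℚ] AlgebraicClosure ℚ)
local notation "Qb" => AlgebraicClosure ℚ

variable {N' p : ℕ} [NeZero N'] [Fact p.Prime] {S : Finset ℕ}
  {𝒪 : Type} [CommRing 𝒪] [IsDomain 𝒪] [IsDiscreteValuationRing 𝒪]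
  [IsAdicComplete (maximalIdeal 𝒪) 𝒪] [Finite (ResidueField 𝒪)] [CharZero 𝒪]
  {θ : heckeAlgebra (N' * p) 2 (↑S : Set ℕ) →+* ResidueField 𝒪}

/-- **G3 (strict-ordinary branch), general carrier.** -/
theorem exists_psi_strict
    {TQ : Type} [CommRing TQ] [IsLocalRing TQ] [IsNoetherianRing TQ]
    [IsAdicComplete (maximalIdeal TQ) TQ] [Algebra 𝒪 TQ] [IsLocalHom (algebraMap 𝒪 TQ)]
    (hp2 : p ≠ 2) (hp𝒪 : (p : 𝒪) ∈ maximalIdeal 𝒪)
    (h : ExactDvd p (N' * p)) (hside : p = 3 → 2 ∣ N' * p) (hpS : p ∈ S)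
    (hNS : ∀ q : ℕ, q.Prime → q ∣ N' * p → q ∈ S)
    (ρbar : ResidualGaloisRep (ResidueField 𝒪)) (habs : ρbar.IsAbsolutelyIrreducible)
    (hfrob : ∀ (ℓ : ℕ) (hℓ : ℓ.Prime) (hℓN : ¬ ℓ ∣ N' * p) (hℓS : ℓ ∉ (↑S : Set ℕ)),
      ∀ P : ValuationSubring Qb, P.LiesOverPrime ℓ → ∀ σ : GQ, P.IsFrobeniusAt σ ℓ →
        ∃ d₀ : ResidueField 𝒪, LinearMap.charpoly (ρbar.ρ σ) =
          X ^ 2 - C (θ (heckeAlgebra.T hℓ hℓN hℓS)) * X + C d₀)
    (hordbar : (GaloisRepAdic.ofResidualGaloisRep ρbar).IsOrdinaryAt p)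
    (tw : heckeAlgebra (N' * p) 2 (↑S : Set ℕ) →+* TQ)
    (hres : ∀ t, residue TQ (tw t) = ResidueField.map (algebraMap 𝒪 TQ) (θ t))
    (hgen : Algebra.adjoin 𝒪 (Set.range tw) = ⊤)
    (hressurj : Function.Surjective (residue TQ ∘ algebraMap 𝒪 TQ))
    (hann : ∀ t₀ : 𝒪 ⊗[ℤ] heckeAlgebra (N' * p) 2 (↑S : Set ℕ),
      (∀ (a : 𝒪), ∀ x ∈ (LamNew (not_dvd_of_exactDvd h) :
          AddSubgroup (levelData p (N' * p) hpS hNS).Λ),
        (levelData p (N' * p) hpS hNS).heckeTensor 𝒪 t₀ (a ⊗ₜ[ℤ] x) = 0) →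
          Fermat.Agent.GB.B10.L.GalPkgSO.twO (𝒪 := 𝒪) tw t₀ = 0)
    (Smin Su Q Sun : Finset ℕ) (hpT : p ∈ Smin ∪ Su ∪ Q)
    (hNT : ∀ q : ℕ, q.Prime → q ∣ N' * p → q ∈ Smin ∪ Su ∪ Q)
    (hSmin : ∀ q ∈ Smin, q.Prime → q ≠ p → q ∣ N' * p ∧ ¬ q ^ 2 ∣ N' * p)
    (hSun : ∀ q ∈ Sun, q.Prime → q ≠ p → q ∣ N' * p ∧ ¬ q ^ 2 ∣ N' * p)
    (DQ : DeformationRingData 𝒪 ρbar (framedCond p (strictOrdinaryCondition 𝒪 p) Smin Su Q)) :
    ∃ (ψ : DQ.R →ₐ[𝒪] TQ) (hψ : IsLocalHom (ψ : DQ.R →+* TQ)) (ρQ : GaloisRepAdic TQ),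
      Function.Surjective ψ ∧
      (DQ.ρ.baseChangeAlong (ψ : DQ.R →+* TQ) hψ).IsEquiv ρQ ∧
      (∀ (ℓ : ℕ) (hℓ : ℓ.Prime) (hℓN : ¬ ℓ ∣ N' * p) (hℓS : ℓ ∉ (↑S : Set ℕ))
        (A : ValuationSubring Qb), A.LiesOverPrime ℓ → ∀ σ : GQ, A.IsFrobeniusAt σ ℓ →
          LinearMap.charpoly (ρQ.ρ σ) =
            X ^ 2 - C (tw (heckeAlgebra.T hℓ hℓN hℓS)) * X + C ((ℓ : TQ))) ∧
      ρQ.DetIsCyclotomic p ∧
      (∀ q ∈ Sun, q.Prime → q ≠ p → ρQ.IsUnipotentOnInertiaAt q) ∧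
      ρQ.residual.IsEquiv (ρbar.baseChangeAlong (ResidueField.map (algebraMap 𝒪 TQ))) := by
  have hp : p.Prime := Fact.out
  obtain ⟨H, hπ, -, hunrH, hresH⟩ :=
    Fermat.Agent.GB.Glue.DatumOfRhobar.exists_datum p (N' * p) S 𝒪 θ hp2 hpS hNS hp𝒪 ρbar habs
      hfrob
  -- S33's residual hypothesis for the datum
  have hresord : (GaloisRepAdic.ofResidualGaloisRep H.ρ.residual).IsOrdinaryAt p := by
    obtain ⟨e⟩ := hresH
    exact Fermat.Agent.GB.ResOrd.Plug.isOrdinaryAt_of_isEquiv ⟨e.symm⟩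
      (Fermat.Agent.GB.ResOrd.Plug.isOrdinaryAt_baseChangeAlong ρbar _ hordbar)
  obtain ⟨φ, hφ, hφs, hφt, hchar, hstrict, hunip⟩ :=
    Fermat.Agent.GB.B10.L.GalPkgSO.exists_galRep_strict_of_ann (TQ := TQ) hp2 hp𝒪 h hside hpS hNS
      H hπ hresord tw hres hgen S (Smin ∪ Sun) (Finset.Subset.refl S)
      (fun q hq hqpr hqp => by
        rcases Finset.mem_union.mp hq with h' | h'
        · exact hSmin q h' hqpr hqp
        · exact hSun q h' hqpr hqp)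
      (LamNew (not_dvd_of_exactDvd h)) hann (hY_lamNew h hpS hNS (not_dvd_of_exactDvd h))
  -- the type of the pushed representation
  have h𝒟 : framedCond p (strictOrdinaryCondition 𝒪 p) Smin Su Q
      (pushRep H φ.toRingHom hφ) := by
    refine ⟨⟨hstrict.1, hstrict.2.1, fun q hq hqT => ?_⟩, fun q hq hqpr hqp =>
      hunip q (Finset.mem_union_left _ hq) hqpr hqp⟩
    exact Fermat.Agent.GP.Tan.isUnramifiedAt_baseChangeAlong φ.toRingHom hφ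
      (hunrH q hq (fun hqN => hqT (hNT q hq hqN)) (fun hqp => hqT (by rw [hqp]; exact hpT)))
  -- its residual representation
  have hresQ : (pushRep H φ.toRingHom hφ).residual.IsEquiv
      (ρbar.baseChangeAlong (ResidueField.map (algebraMap 𝒪 TQ))) := by
    have h1 := Fermat.Agent.GB.B4.Datum.PushTloc.residual_push H.ρ φ.toRingHom hφ ρbar
      (ResidueField.map (algebraMap 𝒪 (Tloc 𝒪 θ))) hresH
    haveI := hφ
    have e : (ResidueField.map φ.toRingHom).comp (ResidueField.map (algebraMap 𝒪 (Tloc 𝒪 θ))) =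
        ResidueField.map (algebraMap 𝒪 TQ) := by
      ext x
      obtain ⟨a, rfl⟩ := residue_surjective x
      rw [RingHom.comp_apply, ResidueField.map_residue, ResidueField.map_residue,
        ResidueField.map_residue]
      congr 1
      exact φ.commutes a
    rw [e] at h1
    exact h1
  obtain ⟨ψ, hψ, hsurj, he⟩ := Fermat.Agent.GB.B4.Datum.PsiTQPush.exists_psi_of_type DQ hNS
    hressurj (pushRep H φ.toRingHom hφ) h𝒟 hresQ tw hgen hchar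
  exact ⟨ψ, hψ, pushRep H φ.toRingHom hφ, hsurj, he, hchar,
    detIsCyclotomic_push hp hp𝒪 hpS H φ.toRingHom hφ,
    fun q hq hqpr hqp => hunip q (Finset.mem_union_right _ hq) hqpr hqp, hresQ⟩

variable {M : Type} [AddCommGroup M] [Module 𝒪 M] [Module.Finite 𝒪 M] [Module.Free 𝒪 M]
  [Nontrivial M] {tw : heckeAlgebra (N' * p) 2 (↑S : Set ℕ) →+* Module.End 𝒪 M}

/-- **G3 (strict-ordinary branch) over the image ring `TQ 𝒪 θ tw`** of an `End`-valued Hecke action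
with `LocHyp`; binder = the MODULE-level annihilator statement `(hAnn)` for `LamNew`. -/
theorem exists_psi_TQ_strict [hloc : Fact (LocHyp 𝒪 θ tw)]
    (hp2 : p ≠ 2) (hp𝒪 : (p : 𝒪) ∈ maximalIdeal 𝒪)
    (h : ExactDvd p (N' * p)) (hside : p = 3 → 2 ∣ N' * p) (hpS : p ∈ S)
    (hNS : ∀ q : ℕ, q.Prime → q ∣ N' * p → q ∈ S)
    (ρbar : ResidualGaloisRep (ResidueField 𝒪)) (habs : ρbar.IsAbsolutelyIrreducible)
    (hfrob : ∀ (ℓ : ℕ) (hℓ : ℓ.Prime) (hℓN : ¬ ℓ ∣ N' * p) (hℓS : ℓ ∉ (↑S : Set ℕ)),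
      ∀ P : ValuationSubring Qb, P.LiesOverPrime ℓ → ∀ σ : GQ, P.IsFrobeniusAt σ ℓ →
        ∃ d₀ : ResidueField 𝒪, LinearMap.charpoly (ρbar.ρ σ) =
          X ^ 2 - C (θ (heckeAlgebra.T hℓ hℓN hℓS)) * X + C d₀)
    (hordbar : (GaloisRepAdic.ofResidualGaloisRep ρbar).IsOrdinaryAt p)
    (hAnn : ∀ t₀ : 𝒪 ⊗[ℤ] heckeAlgebra (N' * p) 2 (↑S : Set ℕ),
      (∀ (a : 𝒪), ∀ x ∈ (LamNew (not_dvd_of_exactDvd h) :
          AddSubgroup (levelData p (N' * p) hpS hNS).Λ),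
        (levelData p (N' * p) hpS hNS).heckeTensor 𝒪 t₀ (a ⊗ₜ[ℤ] x) = 0) →
          ∀ m : M, twO 𝒪 tw t₀ m = 0)
    (Smin Su Q Sun : Finset ℕ) (hpT : p ∈ Smin ∪ Su ∪ Q)
    (hNT : ∀ q : ℕ, q.Prime → q ∣ N' * p → q ∈ Smin ∪ Su ∪ Q)
    (hSmin : ∀ q ∈ Smin, q.Prime → q ≠ p → q ∣ N' * p ∧ ¬ q ^ 2 ∣ N' * p)
    (hSun : ∀ q ∈ Sun, q.Prime → q ≠ p → q ∣ N' * p ∧ ¬ q ^ 2 ∣ N' * p)
    (DQ : DeformationRingData 𝒪 ρbar (framedCond p (strictOrdinaryCondition 𝒪 p) Smin Su Q)) :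
    ∃ (ψ : DQ.R →ₐ[𝒪] TQ 𝒪 θ tw) (hψ : IsLocalHom (ψ : DQ.R →+* TQ 𝒪 θ tw))
      (ρQ : GaloisRepAdic (TQ 𝒪 θ tw)),
      Function.Surjective ψ ∧
      (DQ.ρ.baseChangeAlong (ψ : DQ.R →+* TQ 𝒪 θ tw) hψ).IsEquiv ρQ ∧
      (∀ (ℓ : ℕ) (hℓ : ℓ.Prime) (hℓN : ¬ ℓ ∣ N' * p) (hℓS : ℓ ∉ (↑S : Set ℕ))
        (A : ValuationSubring Qb), A.LiesOverPrime ℓ → ∀ σ : GQ, A.IsFrobeniusAt σ ℓ →
          LinearMap.charpoly (ρQ.ρ σ) =
            X ^ 2 - C (chi 𝒪 θ tw (heckeAlgebra.T hℓ hℓN hℓS)) * X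
              + C ((ℓ : TQ 𝒪 θ tw))) ∧
      ρQ.DetIsCyclotomic p ∧
      (∀ q ∈ Sun, q.Prime → q ≠ p → ρQ.IsUnipotentOnInertiaAt q) ∧
      ρQ.residual.IsEquiv
        (ρbar.baseChangeAlong (ResidueField.map (algebraMap 𝒪 (TQ 𝒪 θ tw)))) :=
  exists_psi_strict hp2 hp𝒪 h hside hpS hNS ρbar habs hfrob hordbar (chi 𝒪 θ tw)
    (fun t => residue_chi (θ := θ) (tw := tw) t) (adjoin_range_chi 𝒪 θ tw)
    (residue_comp_algebraMap_surjective (θ := θ) (tw := tw))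
    (Fermat.Agent.GB.B10.L.GalPkgSOImg.hann_of_module (θ := θ) tw _ hAnn)
    Smin Su Q Sun hpT hNT hSmin hSun DQ

end Fermat.Agent.GB.B9.ProviderNew.G3
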