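/-
GATE-B / GB-PNEW, leaf (hAnn)-CONCRETE (helper39; helper32 board 6595): **the annihilator statement
(ANN) on the `𝔪`-primary part of the big Taylor–Wiles level, over a zero base, and its descent to
the two coinvariant quotients** — the module-level binder `(hAnn)` of
`GalPkgSOImg.exists_galRep_TQ_strict` / `ProviderNew.G3.exists_psi_TQ_strict`.

The level is `N q` with `q ∤ N` the prime at which the forms are new (`q = p` in the application),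
the characters are `θ = thQ (Theta (Δs p e) H.psi j) q` for the prime data `H` at level `N`; the
twisted level (chain level) is `N'' q`.

* `twO_eq_zero_of_isLoc` : (ANN) ∘ (HC) ∘ (L1).  For ANY ring hom `tw` with the generator formula
  `htw` (helper44 `TwInst.exists_tw_primeData`), the chain binders of `TwR.primeData_hyps`, and
  `hbase : Hom(Γ₀(N), O)_𝔪 = 0`: every `t₀ ∈ O ⊗ heckeAlgebra (N'' q) 2 S` killing `O ⊗ LamNew`
  kills every parabolic class in the `𝔪`-primary part, `twO O tw t₀ v = 0`.  The character `θ` is a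
  VARIABLE with an equation `hθeq : θ = thQ (Theta …) q` (so that consumers whose objects are spelled
  with `Theta (Δs p e) H'.psi j` at level `N q` need no cast: they prove the equation by `ext`).
* `hAnn_prod_of_isLoc` : the descent `V ⊇ P ↠ M₁, M₂` — `σ` on `P` intertwined with `tw` by an
  injective `ι` with values in the `𝔪`-primary part, `a₁`, `a₂` on `M₁`, `M₂` intertwined with `σ`
  by surjections `f₁`, `f₂` ⟹ the binder `(hAnn)` for `TQFields.prodTw O a₁ a₂` on `M₁ × M₂`.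
-/
import Fermat.Agent.GB.B10.L.AnnNew
import Fermat.Agent.GB.B10.L.AnnDescend
import Fermat.Agent.GB.B10.L2.HCores
import Fermat.Agent.GB.B10.L.GalPkgSOImg

set_option autoImplicit false
set_option linter.unusedSectionVars false

noncomputable section

open scoped MatrixGroups TensorProduct
open CongruenceSubgroup Matrix Matrix.SpecialLinearGroup ModularCurve.Period CuspForm
open Fermat.Agent.S16_helper49 Fermat.Agent.GM.B
open Fermat.Agent.GB.B3 Fermat.Agent.GB.B3.EisGamma0 Fermat.Agent.GB.B3.GamH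
open Fermat.Agent.GJ.J2.ZStruct Fermat.Agent.GJ.J2.Lat Fermat.Agent.GJ.J2.LatAct
open Fermat.Agent.GB.B4.Twist.Chain Fermat.Agent.GB.B4.Twist.ChainD
open Fermat.Agent.GB.B4.Twist.Asm Fermat.Agent.GB.B4.Twist.Coeff Fermat.Agent.GB.B4.Twist.TwR
open Fermat.Agent.GB.B4.Datum.ImageRing Fermat.Agent.GJ.Tate Fermat.Agent.GJ.Tate.Lim
open Fermat.Agent.GB.B10.L.ThetaNew
open Fermat.Agent.GB.B3.TWLevel Fermat.Agent.GB.B3.RealLevel
  Fermat.Agent.GB.B3.HeckeActH Fermat.Agent.GB.B3.TWChars Fermat.Agent.GB.B3.FinalTW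
  Fermat.Agent.GB.B3.Tower Fermat.Agent.GB.B3.StepInst Fermat.Agent.GB.B3.LocTransport
  Fermat.Agent.GB.B3.LocTransportInst Fermat.Agent.GB.B3.LocTransportInstD
open Fermat.Agent.GB.B7.UqSq

namespace Fermat.Agent.GB.B9.ProviderNew.HAnn

/-- local instance (Prop-valued class) -/
local instance factPrimeOffHAnn {S : Set ℕ} (l : PrimesOff S) : Fact (l.1 : ℕ).Prime := ⟨l.1.2⟩

section Tower

variable {N q p N'' : ℕ} [NeZero N] [NeZero (N * q)] [NeZero N''] [NeZero (N'' * q)]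
  [Fact q.Prime] [hpF : Fact p.Prime] {Kk : ℕ} {r e N' : ℕ → ℕ}
variable (Sy : Symbols (N * q)) (hrN : ∀ j, Sy.r j ∣ N) (hqN : ¬ q ∣ N)
variable {O : Type} [CommRing O] [IsDomain O] [IsPrincipalIdealRing O] [IsLocalRing O]
  [IsAdicComplete (IsLocalRing.maximalIdeal O) O] [Module.IsTorsionFree ℤ O]
variable (𝔪 : Ideal (Sy.𝕋 O)) [𝔪.IsMaximal]
variable (H : PrimeData N p Kk r e N') {ϖ : O} {s0 : Sy.ι₁}
  (h : Plug.Hyp (restrict Sy hrN) 𝔪 p ϖ s0)
variable {K : Type} [Field K] [CharZero K] [Algebra O K]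

include h hqN in
/-- **(ANN) on the `𝔪`-primary part over a zero base.** -/
theorem twO_eq_zero_of_isLoc
    (hbase : ∀ y : Additive (Gamma0 N) →+ O,
      IsLoc (HeckeActH.act0 (restrict Sy hrN) O) 𝔪 y → y = 0) (j : ℕ)
    {θ : (ZMod (N * q))ˣ →* (∀ i : Fin j, Δs p e i)}
    (hθeq : θ = thQ (Theta (Δs p e) H.psi j) q) (hθ : Function.Surjective θ)
    (S : Finset ℕ) (hqS : q ∈ S)
    (hNS : ∀ ℓ : ℕ, ℓ.Prime → ℓ ∣ N'' * q → ℓ ∈ S) (hNN' : N * q ∣ N'' * q)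
    (hinj : Function.Injective (algebraMap O K))
    [Fintype ((∀ i : Fin j, Δs p e i) →* Kˣ)]
    [HasEnoughRootsOfUnity K (Monoid.exponent (∀ i : Fin j, Δs p e i))]
    (Lε : ((∀ i : Fin j, Δs p e i) →* Kˣ) → List (TwDatum K (∀ i : Fin j, Δs p e i)))
    (dℓ : PrimesOff (↑S : Set ℕ) → Gamma0 (N * q))
    (hadm : ∀ ε, Adm (N * q) θ (Lε ε)) (hlev : ∀ ε, chainLevel (N * q) (Lε ε) = N'' * q)
    (rep' : ∀ ε, (∀ i : Fin j, Δs p e i) → Gamma0 (chainLevel (N * q) (Lε ε)))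
    (hrep' : ∀ ε δ, chi (chainθ (N * q) θ (Lε ε)) (rep' ε δ) = δ)
    (hsq : ∀ ε, ∀ d ∈ Lε ε, ¬ d.r ^ 2 ∣ N * q)
    (hnd : ∀ ε, (Lε ε).Pairwise (fun d e => d.r ≠ e.r))
    (hψ : ∀ ε, ∀ d ∈ Lε ε, (∀ v : (ZMod d.r)ˣ, d.ψ (v : ZMod d.r) = 1) ∨
      ∃ v : (ZMod d.r)ˣ, d.ψ (v : ZMod d.r) ^ 2 ≠ 1)
    (hν : ∀ (ε : (∀ i : Fin j, Δs p e i) →* Kˣ) (δ : ∀ i : Fin j, Δs p e i),
      ((Lε ε).map (fun d => d.ν)).prod δ = ε δ)
    (hc : ∀ (ε : (∀ i : Fin j, Δs p e i) →* Kˣ) (l : PrimesOff (↑S : Set ℕ)),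
      ((ε (chi θ (dℓ l)) : Kˣ) : K) * chainPsi (Lε ε) (l.1 : ℕ) = 1)
    (tw : ↥(heckeAlgebra (N'' * q) 2 (↑S : Set ℕ)) →+*
      Module.End O ↥(parabolicHoms O (GammaH θ) O))
    (htw : ∀ (l : PrimesOff (↑S : Set ℕ)) (v : ↥(parabolicHoms O (GammaH θ) O)),
      ((tw (formsGenS (N'' * q) (↑S : Set ℕ) l) v : ↥(parabolicHoms O (GammaH θ) O)) :
          Additive (GammaH θ) →+ O)
        = diaH θ O (dℓ l) (GamH.TH θ O
            (not_dvd_level (↑S : Set ℕ) (Fermat.Agent.GB.B10.L.Ann.hS_of_hNS S hNS) hNN' l)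
            (v : Additive (GammaH θ) →+ O)))
    (hqN'' : ¬ q ∣ N'')
    (t₀ : O ⊗[ℤ] ↥(heckeAlgebra (N'' * q) 2 (↑S : Set ℕ)))
    (ht₀ : ∀ (a : O),
      ∀ Φ ∈ (LamNew hqN'' : AddSubgroup
        (Fermat.Agent.GB.B10.KumLevelHecke.levelData q (N'' * q) hqS hNS).Λ),
      (Fermat.Agent.GB.B10.KumLevelHecke.levelData q (N'' * q) hqS hNS).heckeTensor O t₀
        (a ⊗ₜ[ℤ] Φ) = 0)
    (v : ↥(parabolicHoms O (GammaH θ) O))
    (hv : IsLoc (actH Sy O θ) 𝔪 (v : Additive (GammaH θ) →+ O)) :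
    twO O tw t₀ v = 0 := by
  subst hθeq
  refine Fermat.Agent.GB.B10.L.AnnNew.ann_lamNew _ hθ S hqS hNS hNN' hinj Lε dℓ hadm hlev rep'
    hrep' hsq hnd hψ hν hc tw htw hqN''
    {w | IsLoc (actH Sy O (thQ (Theta (Δs p e) H.psi j) q)) 𝔪
      (w : Additive (GammaH (thQ (Theta (Δs p e) H.psi j) q)) →+ O)}
    (fun w hw ε => ?_) t₀ ht₀ v hv
  exact Fermat.Agent.GB.B10.L2.HCores.hcores_of_tower Sy hrN hqN 𝔪 H h hbase j hθ (Lε ε)
    (hadm ε) hqN'' (rep' ε) (hrep' ε) (hlev ε) ε hw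

end Tower

/-! ### descent to the two coinvariant quotients -/

section Descent

variable {O : Type} [CommRing O] [IsLocalRing O] {A : Type} [CommRing A]
  {V P M₁ M₂ : Type} [AddCommGroup V] [Module O V] [AddCommGroup P] [Module O P]
  [AddCommGroup M₁] [Module O M₁] [AddCommGroup M₂] [Module O M₂]

/-- **the binder `(hAnn)` for the product action on `M₁ × M₂`** from (ANN) on a set `Loc` of
classes of the big module `V` containing the image of `P`. -/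
theorem hAnn_prod_of_isLoc (Kills : O ⊗[ℤ] A → Prop)
    (tw : A →+* Module.End O V) (Loc : Set V)
    (hV : ∀ t₀ : O ⊗[ℤ] A, Kills t₀ → ∀ v ∈ Loc, twO O tw t₀ v = 0)
    (σ : A →+* Module.End O P) (ι : P →ₗ[O] V) (hι : ∀ t y, ι (σ t y) = tw t (ι y))
    (hιinj : Function.Injective ι) (hιLoc : ∀ y, ι y ∈ Loc)
    (a₁ : A →+* Module.End O M₁) (f₁ : P →ₗ[O] M₁) (hf₁ : ∀ t y, f₁ (σ t y) = a₁ t (f₁ y))
    (hs₁ : Function.Surjective f₁)
    (a₂ : A →+* Module.End O M₂) (f₂ : P →ₗ[O] M₂) (hf₂ : ∀ t y, f₂ (σ t y) = a₂ t (f₂ y))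
    (hs₂ : Function.Surjective f₂) :
    ∀ t₀ : O ⊗[ℤ] A, Kills t₀ → ∀ m : M₁ × M₂,
      twO O (Fermat.Agent.GB.B4.Datum.TQFields.prodTw O a₁ a₂) t₀ m = 0 :=
  Fermat.Agent.GB.B10.L.GalPkgSOImg.hAnn_prodTw a₁ a₂ Kills
    (fun t₀ ht₀ => Fermat.Agent.GB.B10.L.AnnDescend.hAnn_of_chain tw σ a₁ ι hι hιinj f₁ hf₁ hs₁ t₀
      (fun y => hV t₀ ht₀ (ι y) (hιLoc y)))
    (fun t₀ ht₀ => Fermat.Agent.GB.B10.L.AnnDescend.hAnn_of_chain tw σ a₂ ι hι hιinj f₂ hf₂ hs₂ t₀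
      (fun y => hV t₀ ht₀ (ι y) (hιLoc y)))

end Descent

end Fermat.Agent.GB.B9.ProviderNew.HAnn
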