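/-
GATE-B / GB-PNEW, leaf (hAnn)-CONCRETE, the instance at B3's BIG LEVEL (helper39; helper32 6595):
the module-level binder `(hAnn)` for the two quotients of `Plug.bigLevel`, in the vocabulary of
helper74 `TwRestrictPlug.exists_twP` (the twist action `twP` on `(bigLevel Sy 𝔪 Hb hb j).M`,
characterised through `(bigReal …).ι`).

The big level lives at level `N q` (`q ∤ N` the prime where the forms are new), with the prime data
`Hb : PrimeData (N q) p K r e N'b`; the tower of (L1)/(HC) lives at level `N`, with the prime data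
`primeData_lower Hb` (same primes `r i`, cofactors `N'b i / q`).  Seam lemmas:

* `primeData_lower`  : `PrimeData (N q) p K r e N'b ⟹ PrimeData N p K r e (N'b · / q)` (`r i ≠ q`);
* `theta_eq_thQ`     : `Theta (Δs p e) Hb.psi j = thQ (Theta (Δs p e) H.psi j) q`;
* `hyp_restrict`     : `Plug.Hyp Sy 𝔪 p ϖ s0 ⟹ Plug.Hyp (restrict Sy hrN) 𝔪 p ϖ s0`;
* **`hAnn_bigLevel`** : `HAnn.twO_eq_zero_of_isLoc` + `HAnn.hAnn_prod_of_isLoc` at
  `P := (bigLevel Sy 𝔪 Hb hb j).M`, `ι := (bigReal …).ι`.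
-/
import Fermat.Agent.GB.B9.ProviderNew.HAnn
import Fermat.Agent.GB.B4.Datum.TwRestrictPlug

set_option autoImplicit false
set_option linter.unusedSectionVars false

noncomputable section

open scoped MatrixGroups TensorProduct
open CongruenceSubgroup Matrix Matrix.SpecialLinearGroup ModularCurve.Period CuspForm
open Fermat.Agent.S16_helper49 Fermat.Agent.GM.B
open Fermat.Agent.GB.B3 Fermat.Agent.GB.B3.EisGamma0 Fermat.Agent.GB.B3.GamH
open Fermat.Agent.GJ.J2.ZStruct Fermat.Agent.GJ.J2.Lat Fermat.Agent.GJ.J2.LatAct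
open Fermat.Agent.GB.B4.Twist.Chain Fermat.Agent.GB.B4.Twist.ChainD
open Fermat.Agent.GB.B4.Twist.Asm Fermat.Agent.GB.B4.Twist.Coeff Fermat.Agent.GB.B4.Twist.TwR
open Fermat.Agent.GB.B4.Datum.ImageRing Fermat.Agent.GJ.Tate Fermat.Agent.GJ.Tate.Lim
open Fermat.Agent.GB.B10.L.ThetaNew
open Fermat.Agent.GB.B3.TWLevel Fermat.Agent.GB.B3.RealLevel
  Fermat.Agent.GB.B3.HeckeActH Fermat.Agent.GB.B3.TWChars Fermat.Agent.GB.B3.FinalTW
  Fermat.Agent.GB.B3.Tower Fermat.Agent.GB.B3.StepInst Fermat.Agent.GB.B3.LocTransport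
  Fermat.Agent.GB.B3.LocTransportInst Fermat.Agent.GB.B3.LocTransportInstD
open Fermat.Agent.GB.B7.UqSq Fermat.Agent.GB.B3.Plug

namespace Fermat.Agent.GB.B9.ProviderNew.HAnnBig

/-- local instance (Prop-valued class) -/
local instance factPrimeOffHAnnBig {S : Set ℕ} (l : PrimesOff S) : Fact (l.1 : ℕ).Prime :=
  ⟨l.1.2⟩

/-! ### seam lemmas -/

section Seam

variable {N q p K : ℕ} {r e N'b : ℕ → ℕ}

/-- **the prime data at the lower level `N`** from the prime data at level `N q`. -/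
theorem primeData_lower (hq : q.Prime) (Hb : PrimeData (N * q) p K r e N'b)
    (hrq : ∀ i, i < K → r i ≠ q) : PrimeData N p K r e (fun i => N'b i / q) := by
  have hdvd : ∀ i, i < K → q ∣ N'b i := by
    intro i hi
    have h1 : q ∣ r i * N'b i := (Hb.fact i hi) ▸ Dvd.intro_left N rfl
    rcases (Nat.Prime.dvd_mul hq).mp h1 with h2 | h2
    · exact absurd ((Nat.prime_dvd_prime_iff_eq hq (Hb.prime i hi)).mp h2).symm (hrq i hi)
    · exact h2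
  refine ⟨Hb.prime, fun i hi => ?_, fun i hi => ?_, Hb.cong, Hb.inj, Hb.e_out⟩
  · have h1 := Hb.fact i hi
    obtain ⟨c, hc⟩ := hdvd i hi
    have h2 : N'b i / q = c := by rw [hc, Nat.mul_div_cancel_left c hq.pos]
    show N = r i * (N'b i / q)
    rw [h2]
    rw [hc] at h1
    have h3 : N * q = (r i * c) * q := by rw [h1]; ring
    exact Nat.eq_of_mul_eq_mul_right hq.pos h3
  · exact Nat.Coprime.coprime_dvd_right (Nat.div_dvd_of_dvd (hdvd i hi)) (Hb.cop i hi)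

variable [NeZero N] [NeZero (N * q)]

/-- **the characters of the two prime data agree**: `Theta` at level `N q` is `thQ` of `Theta` at
level `N`. -/
theorem theta_eq_thQ {N' : ℕ → ℕ} (Hb : PrimeData (N * q) p K r e N'b)
    (H : PrimeData N p K r e N') (j : ℕ) :
    Theta (Δs p e) Hb.psi j = thQ (Theta (Δs p e) H.psi j) q := by
  refine MonoidHom.ext fun u => funext fun i => ?_
  show Hb.psi i u = H.psi i (ZMod.unitsMap (Nat.dvd_mul_right N q) u)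
  unfold PrimeData.psi
  by_cases hi : (i : ℕ) < K
  · rw [dif_pos hi, dif_pos hi]
    have : Fact (r i).Prime := ⟨Hb.prime i hi⟩
    show psiR (Hb.dvd i hi) (Hb.cong i hi) u =
      psiR (H.dvd i hi) (H.cong i hi) (ZMod.unitsMap (Nat.dvd_mul_right N q) u)
    rw [psiR_apply, psiR_apply, ← MonoidHom.comp_apply (ZMod.unitsMap _) (ZMod.unitsMap _),
      ZMod.unitsMap_comp]
  · rw [dif_neg hi, dif_neg hi]
    rfl

end Seam

section Hyp

variable {N q : ℕ} (Sy : Symbols (N * q)) (hrN : ∀ j, Sy.r j ∣ N)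
variable {O : Type} [CommRing O] [IsDomain O] [IsPrincipalIdealRing O] [IsLocalRing O]
  [IsAdicComplete (IsLocalRing.maximalIdeal O) O] [Module.IsTorsionFree ℤ O]
variable (𝔪 : Ideal (Sy.𝕋 O)) [𝔪.IsMaximal]

/-- the standing hypotheses of B3 pass to the restricted symbols. -/
theorem hyp_restrict {p : ℕ} {ϖ : O} {s0 : Sy.ι₁} (hb : Plug.Hyp Sy 𝔪 p ϖ s0) :
    Plug.Hyp (restrict Sy hrN) 𝔪 p ϖ s0 :=
  ⟨hb.hϖ0, hb.hmax, hb.hpϖ, hb.hp0, hb.hp2, hb.hp3, hb.hτ⟩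

end Hyp

/-! ### the big level -/

section Big

variable {N q p N'' : ℕ} [NeZero N] [NeZero (N * q)] [NeZero N''] [NeZero (N'' * q)]
  [hqF : Fact q.Prime] [hpF : Fact p.Prime] {K : ℕ} {r e N'b : ℕ → ℕ}
variable (Sy : Symbols (N * q)) (hrN : ∀ j, Sy.r j ∣ N) (hqN : ¬ q ∣ N)
variable {O : Type} [CommRing O] [IsDomain O] [IsPrincipalIdealRing O] [IsLocalRing O]
  [IsAdicComplete (IsLocalRing.maximalIdeal O) O] [Module.IsTorsionFree ℤ O]
variable (𝔪 : Ideal (Sy.𝕋 O)) [𝔪.IsMaximal]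
variable (Hb : PrimeData (N * q) p K r e N'b) {ϖ : O} {s0 : Sy.ι₁}
  (hb : Plug.Hyp Sy 𝔪 p ϖ s0)
variable {F : Type} [Field F] [CharZero F] [Algebra O F]

include hqN in
/-- **the binder `(hAnn)` for two quotients of B3's big level**, from a zero base at level `N`. -/
theorem hAnn_bigLevel (hrq : ∀ i, i < K → r i ≠ q)
    (hbase : ∀ y : Additive (Gamma0 N) →+ O,
      IsLoc (HeckeActH.act0 (restrict Sy hrN) O) 𝔪 y → y = 0) (j : ℕ)
    (hθ : Function.Surjective (Theta (Δs p e) Hb.psi j))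
    (S : Finset ℕ) (hqS : q ∈ S)
    (hNS : ∀ ℓ : ℕ, ℓ.Prime → ℓ ∣ N'' * q → ℓ ∈ S) (hNN' : N * q ∣ N'' * q)
    (hinj : Function.Injective (algebraMap O F))
    [Fintype ((∀ i : Fin j, Δs p e i) →* Fˣ)]
    [HasEnoughRootsOfUnity F (Monoid.exponent (∀ i : Fin j, Δs p e i))]
    (Lε : ((∀ i : Fin j, Δs p e i) →* Fˣ) → List (TwDatum F (∀ i : Fin j, Δs p e i)))
    (dℓ : PrimesOff (↑S : Set ℕ) → Gamma0 (N * q))
    (hadm : ∀ ε, Adm (N * q) (Theta (Δs p e) Hb.psi j) (Lε ε))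
    (hlev : ∀ ε, chainLevel (N * q) (Lε ε) = N'' * q)
    (rep' : ∀ ε, (∀ i : Fin j, Δs p e i) → Gamma0 (chainLevel (N * q) (Lε ε)))
    (hrep' : ∀ ε δ, chi (chainθ (N * q) (Theta (Δs p e) Hb.psi j) (Lε ε)) (rep' ε δ) = δ)
    (hsq : ∀ ε, ∀ d ∈ Lε ε, ¬ d.r ^ 2 ∣ N * q)
    (hnd : ∀ ε, (Lε ε).Pairwise (fun d e => d.r ≠ e.r))
    (hψ : ∀ ε, ∀ d ∈ Lε ε, (∀ v : (ZMod d.r)ˣ, d.ψ (v : ZMod d.r) = 1) ∨
      ∃ v : (ZMod d.r)ˣ, d.ψ (v : ZMod d.r) ^ 2 ≠ 1)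
    (hν : ∀ (ε : (∀ i : Fin j, Δs p e i) →* Fˣ) (δ : ∀ i : Fin j, Δs p e i),
      ((Lε ε).map (fun d => d.ν)).prod δ = ε δ)
    (hc : ∀ (ε : (∀ i : Fin j, Δs p e i) →* Fˣ) (l : PrimesOff (↑S : Set ℕ)),
      ((ε (chi (Theta (Δs p e) Hb.psi j) (dℓ l)) : Fˣ) : F) * chainPsi (Lε ε) (l.1 : ℕ) = 1)
    (tw : ↥(heckeAlgebra (N'' * q) 2 (↑S : Set ℕ)) →+*
      Module.End O ↥(parabolicHoms O (GammaH (Theta (Δs p e) Hb.psi j)) O))
    (htw : ∀ (l : PrimesOff (↑S : Set ℕ))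
        (v : ↥(parabolicHoms O (GammaH (Theta (Δs p e) Hb.psi j)) O)),
      ((tw (formsGenS (N'' * q) (↑S : Set ℕ) l) v :
          ↥(parabolicHoms O (GammaH (Theta (Δs p e) Hb.psi j)) O)) :
          Additive (GammaH (Theta (Δs p e) Hb.psi j)) →+ O)
        = diaH (Theta (Δs p e) Hb.psi j) O (dℓ l) (GamH.TH (Theta (Δs p e) Hb.psi j) O
            (not_dvd_level (↑S : Set ℕ) (Fermat.Agent.GB.B10.L.Ann.hS_of_hNS S hNS) hNN' l)
            (v : Additive (GammaH (Theta (Δs p e) Hb.psi j)) →+ O)))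
    (hqN'' : ¬ q ∣ N'')
    (hpar : ∀ m : (bigLevel Sy 𝔪 Hb hb j).M, (bigReal Sy 𝔪 Hb hb j).ι m ∈
      parabolicHoms O (GammaH (Theta (Δs p e) Hb.psi j)) O)
    (twP : ↥(heckeAlgebra (N'' * q) 2 (↑S : Set ℕ)) →+*
      Module.End O (bigLevel Sy 𝔪 Hb hb j).M)
    (htwP : ∀ (t : ↥(heckeAlgebra (N'' * q) 2 (↑S : Set ℕ)))
        (m : (bigLevel Sy 𝔪 Hb hb j).M),
      (bigReal Sy 𝔪 Hb hb j).ι (twP t m) =
        ((tw t ⟨(bigReal Sy 𝔪 Hb hb j).ι m, hpar m⟩ :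
          ↥(parabolicHoms O (GammaH (Theta (Δs p e) Hb.psi j)) O)) :
          Additive (GammaH (Theta (Δs p e) Hb.psi j)) →+ O))
    {M₁ M₂ : Type} [AddCommGroup M₁] [Module O M₁] [AddCommGroup M₂] [Module O M₂]
    (a₁ : ↥(heckeAlgebra (N'' * q) 2 (↑S : Set ℕ)) →+* Module.End O M₁)
    (f₁ : (bigLevel Sy 𝔪 Hb hb j).M →ₗ[O] M₁)
    (hf₁ : ∀ t y, f₁ (twP t y) = a₁ t (f₁ y)) (hs₁ : Function.Surjective f₁)
    (a₂ : ↥(heckeAlgebra (N'' * q) 2 (↑S : Set ℕ)) →+* Module.End O M₂)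
    (f₂ : (bigLevel Sy 𝔪 Hb hb j).M →ₗ[O] M₂)
    (hf₂ : ∀ t y, f₂ (twP t y) = a₂ t (f₂ y)) (hs₂ : Function.Surjective f₂) :
    ∀ t₀ : O ⊗[ℤ] ↥(heckeAlgebra (N'' * q) 2 (↑S : Set ℕ)),
      (∀ (a : O),
        ∀ Φ ∈ (LamNew hqN'' : AddSubgroup
          (Fermat.Agent.GB.B10.KumLevelHecke.levelData q (N'' * q) hqS hNS).Λ),
        (Fermat.Agent.GB.B10.KumLevelHecke.levelData q (N'' * q) hqS hNS).heckeTensor O t₀
          (a ⊗ₜ[ℤ] Φ) = 0) →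
      ∀ m : M₁ × M₂,
        twO O (Fermat.Agent.GB.B4.Datum.TQFields.prodTw O a₁ a₂) t₀ m = 0 := by
  have H := primeData_lower hqF.out Hb hrq
  -- the corestriction of `ι` to the parabolic classes
  let ιV : (bigLevel Sy 𝔪 Hb hb j).M →ₗ[O]
      ↥(parabolicHoms O (GammaH (Theta (Δs p e) Hb.psi j)) O) :=
    LinearMap.codRestrict _ (bigReal Sy 𝔪 Hb hb j).ι hpar
  have hιV : ∀ m, ((ιV m : ↥(parabolicHoms O (GammaH (Theta (Δs p e) Hb.psi j)) O)) :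
      Additive (GammaH (Theta (Δs p e) Hb.psi j)) →+ O) = (bigReal Sy 𝔪 Hb hb j).ι m :=
    fun m => rfl
  refine Fermat.Agent.GB.B9.ProviderNew.HAnn.hAnn_prod_of_isLoc _ tw
    {w | IsLoc (actH Sy O (Theta (Δs p e) Hb.psi j)) 𝔪
      (w : Additive (GammaH (Theta (Δs p e) Hb.psi j)) →+ O)}
    (fun t₀ ht₀ v hv =>
      Fermat.Agent.GB.B9.ProviderNew.HAnn.twO_eq_zero_of_isLoc Sy hrN hqN 𝔪 H
        (hyp_restrict Sy hrN 𝔪 hb) hbase j (theta_eq_thQ Hb H j) hθ S hqS hNS hNN' hinj Lε dℓ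
        hadm hlev rep' hrep' hsq hnd hψ hν hc tw htw hqN'' t₀ ht₀ v hv)
    twP ιV ?_ ?_ ?_ a₁ f₁ hf₁ hs₁ a₂ f₂ hf₂ hs₂
  · intro t y
    apply Subtype.ext
    rw [hιV, htwP]
    rfl
  · intro x y hxy
    apply (bigReal Sy 𝔪 Hb hb j).inj
    have := congrArg Subtype.val hxy
    exact this
  · intro y
    show IsLoc (actH Sy O (Theta (Δs p e) Hb.psi j)) 𝔪 ((bigReal Sy 𝔪 Hb hb j).ι y)
    exact ((bigReal Sy 𝔪 Hb hb j).range _).1 ⟨y, rfl⟩

end Big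

end Fermat.Agent.GB.B9.ProviderNew.HAnnBig
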