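/-
GATE-B / GB-PNEW, lower half of the `p`-new provider (helper15): **helper44's
`AnnPlug.hAnn_plug_new` at a VARIABLE level `L = Nl * p`.**

The objects of record of one Taylor–Wiles level (helper51 `ProviderFlat/G1`: `Q.N := M * ∏ qv`,
`Q.Sy : Symbols Q.N`, …) live at a level which is not LITERALLY of the form `Nl * p`, while the
(ANN) chain (`HCores`, `AnnPlug`) is stated at the literal `Nl * p`.  This file is the `subst`
wrapper (same pattern as helper52's `Kill1Var.he_plug_var` for G7):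

* `restrictL Sy hL hrN : Symbols Nl` : the symbols of level `L = Nl * p` with all `U`-primes
  dividing `Nl`, as symbols of level `Nl` (`= LocTransport.restrict` at a literal level:
  `restrictL_eq`; same fields as helper52's `Kill1Var.restrictVar`);
* `hAnn_plug_new_var` : `AnnPlug.hAnn_plug_new` VERBATIM with `Nl * p` replaced by `L` everywhere
  (`hL : L = Nl * p`).
-/
import Fermat.Agent.GB.B10.L.AnnPlug

set_option autoImplicit false
set_option linter.unusedSectionVars false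
set_option linter.style.haveILetI false

noncomputable section

open scoped MatrixGroups TensorProduct
open CongruenceSubgroup Matrix Matrix.SpecialLinearGroup ModularCurve.Period CuspForm
open Fermat.Agent.S16_helper49 Fermat.Agent.GM.B
open Fermat.Agent.GB.B3 Fermat.Agent.GB.B3.EisGamma0 Fermat.Agent.GB.B3.GamH
open Fermat.Agent.GJ.J2.ZStruct Fermat.Agent.GJ.J2.Lat Fermat.Agent.GJ.J2.LatAct
open Fermat.Agent.GB.B4.Twist Fermat.Agent.GB.B4.Twist.Chain Fermat.Agent.GB.B4.Twist.ChainD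
open Fermat.Agent.GB.B4.Twist.Asm Fermat.Agent.GB.B4.Twist.Coeff Fermat.Agent.GB.B4.Twist.TwR
open Fermat.Agent.GB.B4.Datum.ImageRing Fermat.Agent.GJ.Tate Fermat.Agent.GJ.Tate.Lim
open Fermat.Agent.GB.B10 Fermat.Agent.GB.B10.L.ThetaNew
open Fermat.Agent.GB.B3.TWLevel Fermat.Agent.GB.B3.RealLevel
  Fermat.Agent.GB.B3.HeckeActH Fermat.Agent.GB.B3.TWChars Fermat.Agent.GB.B3.FinalTW
  Fermat.Agent.GB.B3.Tower Fermat.Agent.GB.B3.StepInst Fermat.Agent.GB.B3.LocTransport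
  Fermat.Agent.GB.B3.ChiLevelMulti Fermat.Agent.GB.B3.Final
open Fermat.Agent.GB.B4.Datum.TQFields Fermat.Agent.GB.B4.Datum.TQCompat
open Fermat.Agent.GB.B10.L

namespace Fermat.Agent.GB.B9.ProviderNew.HAnnVar

section Restrict

variable {L Nl p : ℕ}

/-- Hecke symbols at a level `L = Nl * p` with all `U`-primes dividing `Nl`, as Hecke symbols at
level `Nl` — the SAME index types, hence the same symbol algebra. -/
def restrictL (Sy : Symbols L) (hL : L = Nl * p) (hrN : ∀ j, Sy.r j ∣ Nl) : Symbols Nl where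
  ι₁ := Sy.ι₁
  ι₂ := Sy.ι₂
  ℓ := Sy.ℓ
  hℓ := Sy.hℓ
  hℓN := fun i h => Sy.hℓN i (hL ▸ Dvd.dvd.mul_right h p)
  r := Sy.r
  hr := Sy.hr
  hrN := hrN

@[simp] theorem restrictL_ℓ (Sy : Symbols L) (hL : L = Nl * p) (hrN : ∀ j, Sy.r j ∣ Nl)
    (i : Sy.ι₁) : (restrictL Sy hL hrN).ℓ i = Sy.ℓ i := rfl

@[simp] theorem restrictL_r (Sy : Symbols L) (hL : L = Nl * p) (hrN : ∀ j, Sy.r j ∣ Nl)
    (j : Sy.ι₂) : (restrictL Sy hL hrN).r j = Sy.r j := rfl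

/-- at a literal level `Nl * p` this is helper95's `LocTransport.restrict` -/
theorem restrictL_eq (Sy : Symbols (Nl * p)) (hrN : ∀ j, Sy.r j ∣ Nl) :
    restrictL Sy rfl hrN = restrict Sy hrN := rfl

end Restrict

section PlugTW

/-- local instance (Prop-valued class) -/
local instance factPrimeOff16 {S : Set ℕ} (l : PrimesOff S) : Fact (l.1 : ℕ).Prime := ⟨l.1.2⟩

variable {L Nl p : ℕ} [NeZero Nl] [hpF : Fact p.Prime] [NeZero L] {Kk : ℕ}
  {r e N' N'₀ : ℕ → ℕ}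
variable (hL : L = Nl * p) (Sy : Symbols L) (hrN : ∀ j, Sy.r j ∣ Nl) (hpNl : ¬ p ∣ Nl)
variable {O : Type} [CommRing O] [IsDomain O] [IsPrincipalIdealRing O] [IsLocalRing O]
  [IsAdicComplete (IsLocalRing.maximalIdeal O) O] [Module.IsTorsionFree ℤ O] [CharZero O]
variable (𝔪 : Ideal (Sy.𝕋 O)) [𝔪.IsMaximal]
variable (H : PrimeData L p Kk r e N') (H₀ : PrimeData Nl p Kk r e N'₀)
  {ϖ : O} {s0 : Sy.ι₁} (h : Plug.Hyp Sy 𝔪 p ϖ s0)
variable (hbase : ∀ y : Additive (Gamma0 Nl) →+ O,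
    IsLoc (HeckeActH.act0 (restrictL Sy hL hrN) O) 𝔪 y → y = 0)
variable (s k : ℕ) (c : Fin s → O) (hc : ∀ v : Fin s, c v ^ p ^ e (s + k - 1 - v) = 1)
  (hc1 : ∀ v, (1 : O) - c v ∈ Ideal.span {ϖ})
variable (hj : s + k ≤ Kk) (hp2 : p ≠ 2)
  {N₀ : ℕ} [NeZero N₀] [NeZero (N₀ * p)] (hN₀ : N₀ * p = L * ∏ i : Fin (s + k), r i)
  (hpN₀ : ¬ p ∣ N₀)
  (S : Finset ℕ) (hpS : p ∈ S) (hNS : ∀ q : ℕ, q.Prime → q ∣ N₀ * p → q ∈ S)
  (dℓ : PrimesOff (↑S : Set ℕ) → Gamma0 L)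
  (hdℓ : ∀ (l : PrimesOff (↑S : Set ℕ)) (u : (ZMod L)ˣ),
    (u : ZMod L) = ((l.1 : ℕ) : ZMod L) →
    chi (Theta (Δs p e) H.psi (s + k)) (dℓ l) ^ 2 * Theta (Δs p e) H.psi (s + k) u = 1)
  (tw : ↥(heckeAlgebra (N₀ * p) 2 (↑S : Set ℕ)) →+*
    Module.End O ↥(parabolicHoms O (GammaH (Theta (Δs p e) H.psi (s + k))) O))
  (htw : ∀ (l : PrimesOff (↑S : Set ℕ))
      (v : ↥(parabolicHoms O (GammaH (Theta (Δs p e) H.psi (s + k))) O)),
    ((tw (formsGenS (N₀ * p) (↑S : Set ℕ) l) v :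
        ↥(parabolicHoms O (GammaH (Theta (Δs p e) H.psi (s + k))) O)) :
        Additive (GammaH (Theta (Δs p e) H.psi (s + k))) →+ O)
      = diaH (Theta (Δs p e) H.psi (s + k)) O (dℓ l) (GamH.TH (Theta (Δs p e) H.psi (s + k)) O
          (not_dvd_level (↑S : Set ℕ) (Ann.hS_of_hNS S hNS) (Dvd.intro _ hN₀.symm) l)
          (v : Additive (GammaH (Theta (Δs p e) H.psi (s + k))) →+ O)))
  (hpar : ∀ x : (Plug.bigLevel Sy 𝔪 H h (s + k)).M,
    (Plug.bigReal Sy 𝔪 H h (s + k)).ι x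
      ∈ parabolicHoms O (GammaH (Theta (Δs p e) H.psi (s + k))) O)
  (twP : ↥(heckeAlgebra (N₀ * p) 2 (↑S : Set ℕ)) →+*
    Module.End O (Plug.bigLevel Sy 𝔪 H h (s + k)).M)
  (hιP : ∀ (t : ↥(heckeAlgebra (N₀ * p) 2 (↑S : Set ℕ)))
      (m : (Plug.bigLevel Sy 𝔪 H h (s + k)).M),
    (Plug.bigReal Sy 𝔪 H h (s + k)).ι (twP t m) =
      ((tw t ⟨(Plug.bigReal Sy 𝔪 H h (s + k)).ι m, hpar m⟩ :
        ↥(parabolicHoms O (GammaH (Theta (Δs p e) H.psi (s + k))) O)) :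
        Additive (GammaH (Theta (Δs p e) H.psi (s + k))) →+ O))
  (hcomm : ∀ t i, twP t * (Plug.bigLevel Sy 𝔪 H h (s + k)).D i
    = (Plug.bigLevel Sy 𝔪 H h (s + k)).D i * twP t)

include H₀ hpNl hbase hj hp2 hdℓ htw hιP in
/-- **the module-level (ANN) on `M¹_Q × M^χ_Q`, `p`-new branch, at a VARIABLE level
`L = Nl * p`**: `AnnPlug.hAnn_plug_new` with the literal `Nl * p` replaced by `L`. -/
theorem hAnn_plug_new_var :
    ∀ t₀ : O ⊗[ℤ] ↥(heckeAlgebra (N₀ * p) 2 (↑S : Set ℕ)),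
      (∀ (a : O),
        ∀ x ∈ (LamNew hpN₀ : AddSubgroup (KumLevelHecke.levelData p (N₀ * p) hpS hNS).Λ),
        (KumLevelHecke.levelData p (N₀ * p) hpS hNS).heckeTensor O t₀ (a ⊗ₜ[ℤ] x) = 0) →
      ∀ m : (Plug.tw Sy 𝔪 H h s k c hc hc1).L1.M × (Plug.tw Sy 𝔪 H h s k c hc hc1).Lχ.M,
        twO O (prodTw O
          (tw1 (Plug.bigLevel Sy 𝔪 H h (s + k)) twP hcomm (Nfun_pos hpF.out e (s + k)) ϖ c
            (Plug.hc_Nfun s k c hc) hc1)
          (twChi (Plug.bigLevel Sy 𝔪 H h (s + k)) twP hcomm (Nfun_pos hpF.out e (s + k)) ϖ c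
            (Plug.hc_Nfun s k c hc) hc1)) t₀ m = 0 := by
  subst hL
  exact AnnPlug.hAnn_plug_new Sy hrN hpNl 𝔪 H H₀ h hbase s k c hc hc1 hj hp2 hN₀ hpN₀ S hpS hNS
    dℓ hdℓ tw htw hpar twP hιP hcomm

end PlugTW

end Fermat.Agent.GB.B9.ProviderNew.HAnnVar

end
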