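/-
GATE-B / B9 PROVIDER, the TOP of the `p`-new branch (helper28; RULING R7 of helper53, PLAN v1 of
helper32): **`SplitMinOrd.CaseB38minNewFO` from ONE named statement `LevelStmtNew`** — the twin of
`ProviderFlat/Top.flatF_of_levelStmt`, through the SAME core `Top.false_of_levels`, the SAME
`Top.FramedEnum` and the SAME conclusion `Top.LevelConcl`.

`NewCtx` = the `CaseB38minNewFO` binders: `p ∣ M`, `hX : ¬ ResMod(M / p)`,
`hordbar : ρ̄_W ordinary at p` instead of `¬ p ∣ M`.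
-/
import Fermat.Agent.GB.B9.ProviderFlat.Top
import Fermat.Agent.GB.Top.SplitMinOrd

set_option autoImplicit false
set_option linter.unusedSectionVars false
set_option linter.unusedVariables false

open WeierstrassCurve WeierstrassCurve.Affine WeierstrassCurve.Affine.Point IsLocalRing
open scoped WeierstrassCurve.Affine

namespace Fermat.Agent.GB.B9.ProviderNew.Top

open Fermat.Agent.GB.Setup.SetupPkg Fermat.Agent.GB.Setup.RhoBar
open Fermat.Agent.GB.Top.S43Frey Fermat.Agent.GB.Top.SplitMin Fermat.Agent.GB.Top.SplitMinOrd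
open Fermat.Agent.GB.B9.ProviderFlat.Top

/-- `ℚ̄`. -/
local notation "Qb" => AlgebraicClosure ℚ
/-- `G_ℚ`. -/
local notation "GQ" => (AlgebraicClosure ℚ ≃ₐ[ℚ] AlgebraicClosure ℚ)

/-- **the CASE-B (`p`-new, minimal, ordinary) binders**, bundled. -/
structure NewCtx (p : ℕ) [Fact p.Prime] (W : WeierstrassCurve ℤ)
    (hcard₁ : Nat.card (Submodule.torsionBy ℤ
      ((W.map (Int.castRingHom ℚ))⁄(AlgebraicClosure ℚ)).Point p) = p ^ 2)
    (hker : GaloisFactorsThroughFiniteLevel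
      (galoisRepModuleEnd (K := AlgebraicClosure ℚ) ℚ (W.map (Int.castRingHom ℚ)) p))
    (M q : ℕ) : Prop where
  hp5 : 5 ≤ p
  hΔ : W.Δ ≠ 0
  hss : W.IsSemistableModel
  hirr : W.ModRepIsIrreducible p
  htrans : ∃ σ : GQ,
    galoisRepModuleEnd (K := Qb) ℚ (W.map (Int.castRingHom ℚ)) p σ ≠ 1 ∧
      (galoisRepModuleEnd (K := Qb) ℚ (W.map (Int.castRingHom ℚ)) p σ - 1) ^ 2 = 0
  hordbar : (GaloisRepAdic.ofResidualGaloisRep (rb p W hcard₁ hker)).IsOrdinaryAt p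
  hq : q.Prime
  hq2 : q ≠ 2
  hqp : q ≠ p
  hqM : q ∣ M
  hsf : Squarefree M
  hpM : p ∣ M
  hX : ¬ W.IsResiduallyModularOfLevel p (M / p)
  hunr : (rb p W hcard₁ hker).IsUnramifiedAt q
  hres : W.IsResiduallyModularOfLevel p M
  hno : ¬ W.IsResiduallyModularOfLevel p (M / q)
  hq1 : q % p = 1
  hscal : ScalarFrob38 W p q
  hSg : ∀ ℓ : ℕ, ℓ.Prime → ℓ ∣ M → ℓ ≠ p →
    ¬ (rb p W hcard₁ hker).IsUnramifiedAt ℓ ∨ (ℓ % p = 1 ∧ ScalarFrob38 W p ℓ)

/-- **what the Taylor–Wiles levels owe in the `p`-new branch.** -/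
def LevelStmtNew : Prop :=
  ∀ (p : ℕ) [Fact p.Prime] (W : WeierstrassCurve ℤ)
    (hcard₁ : Nat.card (Submodule.torsionBy ℤ
      ((W.map (Int.castRingHom ℚ))⁄(AlgebraicClosure ℚ)).Point p) = p ^ 2)
    (hker : GaloisFactorsThroughFiniteLevel
      (galoisRepModuleEnd (K := AlgebraicClosure ℚ) ℚ (W.map (Int.castRingHom ℚ)) p))
    (M q : ℕ) (_ : NewCtx p W hcard₁ hker M q)
    (a n' : ℕ) (_ : q - 1 = p ^ a * n') (_ : ¬ p ∣ n') (_ : 1 ≤ a)
    (P : Pkg p W hcard₁ hker M a) (s : ℕ) (ℓ : Fin (s + 1) → ℕ) (_ : FramedEnum P q s ℓ)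
    (h : P.O) (_ : 2 * h = 1), LevelConcl P ℓ h

/-- **`CaseB38minNewFO` from the Taylor–Wiles levels.** -/
theorem newFO_of_levelStmtNew (hL : LevelStmtNew) : CaseB38minNewFO := by
  intro p _ hp5 W hΔ hss hcard₁ hker hirr htrans hordbar M q hq hq2 hqp hqM hsf hpM hX hunr hres
    hno hq1 hscal hSg
  have C : NewCtx p W hcard₁ hker M q :=
    ⟨hp5, hΔ, hss, hirr, htrans, hordbar, hq, hq2, hqp, hqM, hsf, hpM, hX, hunr, hres, hno, hq1,
      hscal, hSg⟩
  exact false_of_levels hp5 hΔ hirr htrans hq hqp hqM hsf hunr hres hq1 hSg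
    (fun a n' hfac hn' ha P s ℓ E h hh =>
      hL p W hcard₁ hker M q C a n' hfac hn' ha P s ℓ E h hh)

end Fermat.Agent.GB.B9.ProviderNew.Top
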