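/-
GATE-B / B9 PROVIDER, `p`-NEW (strict-ordinary) branch, **LOWER HALF of the final assembly**
(helper32; twin of helper54's `ProviderFlat/LowerQ.levelStmt_of_groups`): helper28's
`ProviderNew.Top.LevelStmtNew` from the record `Lower.GroupsOn` on helper51's level datum `Q.tw1F` at
every Taylor–Wiles set of the strict-ordinary supply.

* `NewGroupsStmt` : what the groups G2, G3 (strict), G4, G6, G7 owe in the `p`-new branch: in every
  context of `LevelStmtNew`, the record `GroupsOn` on `twQ Q …` with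
  `base := strictOrdinaryCondition P.O p`, at every Taylor–Wiles set;
* `levelStmtNew_of_groups : NewGroupsStmt → LevelStmtNew` — through helper54's base-generic
  `LowerQ.levelConcl_SO`, the residual type `hbar` of `ρ̄` being helper39's `HbarSO.hbar_SO_pkg`
  (residual STRICT ordinarity from `hordbar` + `¬ ResMod(M / p)`) with helper4's
  `RhobarCond.hunip_pkg`.
-/
import Fermat.Agent.GB.B9.ProviderFlat.LowerQ
import Fermat.Agent.GB.B9.ProviderNew.Top
import Fermat.Agent.GB.ResOrd.HbarSO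

set_option autoImplicit false
set_option linter.unusedSectionVars false
set_option linter.unusedVariables false
set_option linter.style.haveILetI false

open WeierstrassCurve WeierstrassCurve.Affine.Point IsLocalRing
open scoped WeierstrassCurve.Affine

namespace Fermat.Agent.GB.B9.ProviderNew.LowerQ

open Fermat.Agent.GB.Setup.SetupPkg
open Fermat.Agent.GB.Def.FramedNodes
open Fermat.Agent.GB.B9.ThetaSupply
open Fermat.Agent.GB.B9.ProviderFlat.Lower Fermat.Agent.GB.B9.ProviderFlat.G1
open Fermat.Agent.GB.B9.ProviderFlat.Top Fermat.Agent.GB.B9.ProviderFlat.LowerQ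
open Fermat.Agent.GB.B9.ProviderNew.Top

/-- **what the groups G2, G3 (strict), G4, G6, G7 owe in the `p`-new branch**: in every context of
`Top.LevelStmtNew`, the record `GroupsOn` on `twQ Q …` at every Taylor–Wiles set, for the
strict-ordinary framed deformation problem. -/
def NewGroupsStmt : Prop :=
  ∀ (p : ℕ) [Fact p.Prime] (W : WeierstrassCurve ℤ)
    (hcard₁ : Nat.card (Submodule.torsionBy ℤ
      ((W.map (Int.castRingHom ℚ))⁄(AlgebraicClosure ℚ)).Point p) = p ^ 2)
    (hker : GaloisFactorsThroughFiniteLevel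
      (galoisRepModuleEnd (K := AlgebraicClosure ℚ) ℚ (W.map (Int.castRingHom ℚ)) p))
    (M q : ℕ) (C : NewCtx p W hcard₁ hker M q)
    (a n' : ℕ) (hfac : q - 1 = p ^ a * n') (_ : ¬ p ∣ n') (_ : 1 ≤ a)
    (P : Pkg p W hcard₁ hker M a) (s : ℕ) (ℓ : Fin (s + 1) → ℕ) (E : FramedEnum P q s ℓ)
    (Sig : Finset Nat.Primes) (_ : ∀ q' : Nat.Primes, (q' : ℕ) ∈ P.Smin ∪ P.Su → q' ∈ Sig)
    (g : ℕ),
    haveI : Fact (ℓ (Fin.last s)).Prime := ⟨E.prime _⟩
    GroupsQ P C.hq C.hqM C.hsf (hcong_of_fac hfac) (hp3_of_hp5 C.hp5) ℓ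
      (GaloisRep.strictOrdinaryCondition P.O p) Sig g

/-- **THE LOWER HALF, `p`-new branch**: `Top.LevelStmtNew` from the groups. -/
theorem levelStmtNew_of_groups (hG : NewGroupsStmt) : LevelStmtNew := by
  intro p _ W hcard₁ hker M q C a n' hfac hn' ha P s ℓ E h hh
  haveI : Fact (ℓ (Fin.last s)).Prime := ⟨E.prime _⟩
  exact levelConcl_SO P C.hq C.hqM C.hsf (hcong_of_fac hfac) (hp3_of_hp5 C.hp5) E C.hSg
    (Fermat.Agent.GB.ResOrd.HbarSO.hbar_SO_pkg P C.hp5 C.hpM C.hsf C.hordbar C.hX
      (Fermat.Agent.GB.B9.RhobarCond.hunip_pkg P C.hsf))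
    (fun Sig hSig g => hG p W hcard₁ hker M q C a n' hfac hn' ha P s ℓ E Sig hSig g) hh

end Fermat.Agent.GB.B9.ProviderNew.LowerQ
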