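/-
GATE-B / B9 PROVIDER, `p`-NEW (strict-ordinary) branch (helper32): **the `Θ₀`-supply over the SETUP
bundle with ALL residual binders discharged** — the SO twin of helper4's
`RhobarCond.exists_theta_FL_pkg`.

`exists_theta_SO_pkg` = `ThetaSupply.exists_theta_SO` with `hbar := HbarSO.hbar_SO_pkg` (helper39:
residual STRICT ordinarity from `hordbar` + `¬ ResMod(M / p)`) and `hunip := RhobarCond.hunip_pkg`
(helper4).  Inputs left: the CASE-B (`p`-new) binders `hSg`, `5 ≤ p`, `p ∣ M`, `Squarefree M`,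
`hordbar`, `hX` and an enumeration of `P.Su`.  Conclusion = that of `exists_theta_FL_pkg` VERBATIM with
`flatCondition ↦ strictOrdinaryCondition` (in particular it contains the EXISTENCE of the deformation
ring datum at every Taylor–Wiles level).
-/
import Fermat.Agent.GB.B9.RhobarCond
import Fermat.Agent.GB.ResOrd.HbarSO

set_option autoImplicit false
set_option linter.unusedSectionVars false
set_option linter.unusedVariables false
set_option linter.style.haveILetI false

open WeierstrassCurve WeierstrassCurve.Affine.Point IsLocalRing CuspForm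
open scoped WeierstrassCurve.Affine

namespace Fermat.Agent.GB.B9.ProviderNew.SupplySO

open Fermat.Agent.GB.Setup.RhoBar Fermat.Agent.GB.Setup.SetupPkg
  Fermat.Agent.GB.B9.ThetaSupply Fermat.Agent.GB.Def.FramedNodes

/-- `ℚ̄`. -/
local notation "Qb" => AlgebraicClosure ℚ
/-- `G_ℚ`. -/
local notation "GQ" => (AlgebraicClosure ℚ ≃ₐ[ℚ] AlgebraicClosure ℚ)

variable {p : ℕ} [Fact p.Prime] {W : WeierstrassCurve ℤ}
  {hcard₁ : Nat.card (Submodule.torsionBy ℤ
    ((W.map (Int.castRingHom ℚ))⁄(AlgebraicClosure ℚ)).Point p) = p ^ 2}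
  {hker : GaloisFactorsThroughFiniteLevel
    (galoisRepModuleEnd (K := AlgebraicClosure ℚ) ℚ (W.map (Int.castRingHom ℚ)) p)}
  {M A : ℕ} (P : Pkg p W hcard₁ hker M A)

/-- **THE SUPPLY, strict-ordinary case, over the SETUP bundle.** -/
theorem exists_theta_SO_pkg {s : ℕ} (ℓs : Fin (s + 1) → ℕ) (hSg : SgHyp p W hcard₁ hker M)
    (hp5 : 5 ≤ p) (hpM : p ∣ M) (hsq : Squarefree M)
    (hordbar : (GaloisRepAdic.ofResidualGaloisRep (rb p W hcard₁ hker)).IsOrdinaryAt p)
    (hX : ¬ W.IsResiduallyModularOfLevel p (M / p))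
    (S : Finset ℕ) (hpS : p ∈ S) (hℓs : ∀ x, x ∈ P.Su ↔ ∃ i, ℓs i = x) :
    ∃ Sig : Finset Nat.Primes, (∀ q : Nat.Primes, (q : ℕ) ∈ P.Smin ∪ P.Su → q ∈ Sig) ∧
      ∃ r : ℕ, ∀ n : ℕ, ∃ qv : Fin r → ℕ, Function.Injective qv ∧
        (∀ i, (qv i).Prime ∧ qv i ∉ S ∧ p ^ (n + 1) ∣ qv i - 1) ∧
        (∀ i, ∀ Pl : ValuationSubring (AlgebraicClosure ℚ), Pl.LiesOverPrime (qv i) →
          ∀ φ : AlgebraicClosure ℚ ≃ₐ[ℚ] AlgebraicClosure ℚ, Pl.IsFrobeniusAt φ (qv i) →
            ∃ α β : P.k, α ≠ β ∧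
              LinearMap.charpoly (P.rhobar.ρ φ) = (Polynomial.X - Polynomial.C α) *
                (Polynomial.X - Polynomial.C β)) ∧
        (∀ i, ∀ q ∈ Sig, ((q : Nat.Primes) : ℕ) ≠ qv i) ∧
        Nonempty (GaloisRep.DeformationRingData P.O P.rhobar
          (framedCond p (GaloisRep.strictOrdinaryCondition P.O p) P.Smin P.Su
            (Finset.univ.image qv))) ∧
        ∀ DQ : GaloisRep.DeformationRingData P.O P.rhobar
          (framedCond p (GaloisRep.strictOrdinaryCondition P.O p) P.Smin P.Su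
            (Finset.univ.image qv)),
          ThetaAt P ℓs (GaloisRep.strictOrdinaryCondition P.O p) Sig qv DQ :=
  exists_theta_SO P ℓs hSg
    (Fermat.Agent.GB.ResOrd.HbarSO.hbar_SO_pkg P hp5 hpM hsq hordbar hX
      (Fermat.Agent.GB.B9.RhobarCond.hunip_pkg P hsq)) S hpS hℓs

/-- residual ordinarity of the bundle's `ρ̄ = ρ̄_W ⊗ k` from that of `ρ̄_W` (helper39). -/
theorem isOrdinaryAt_rhobar_pkg
    (hordbar : (GaloisRepAdic.ofResidualGaloisRep (rb p W hcard₁ hker)).IsOrdinaryAt p) :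
    (GaloisRepAdic.ofResidualGaloisRep P.rhobar).IsOrdinaryAt p :=
  Fermat.Agent.GB.ResOrd.StrictPkg.isOrdinaryAt_rhobar P hordbar

end Fermat.Agent.GB.B9.ProviderNew.SupplySO
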