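/-
GATE-B / B9 PROVIDER, `p`-NEW (strict-ordinary) branch, **the FINAL WIRING** (helper32; twin of
helper54's `ProviderFlat.FlatGroups.groupsOn_flat / flatGroups`): `ProviderNew.LowerQ.NewGroupsStmt`,
i.e. the record `Lower.GroupsOn` on helper51's level datum `Q.tw1F …` at EVERY Taylor–Wiles set `Q`
of EVERY `p`-new context, for the strict-ordinary framed deformation problem.

`groupsOn_new` = helper54's BASE-GENERIC `FlatGroups.groupsOn_of_twP` at
`base := GaloisRep.strictOrdinaryCondition P.O p`, with THREE swaps with respect to `groupsOn_flat`: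

1. the forms level is `N'' := G3Level.N0new Q q * p` LITERALLY (`p ∥ M`), with the same equation
   `N0new Q q * p = Q.N * ∏ i : Fin (1 + g), rOf Q.qv q i` (`G3Level.N0new_mul_p`);
2. G3 := `ProviderNew.G3Pkg.exists_psi_pkg_strict` (strictly ordinary at `p`), its module-level
   annihilator binder `hAnn` for `LamNew` := helper44's `AnnG2.hAnn_tw1F_of_gen_G2` (from the
   output `(twP, hι, hD)` of `G2.exists_twP_hecke`; `hbase` from
   `hX : ¬ W.IsResiduallyModularOfLevel p (M / p)`), `hordbar` := `SupplySO.isOrdinaryAt_rhobar_pkg`;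
3. `base := strictOrdinaryCondition`.
-/
import Fermat.Agent.GB.B9.ProviderFlat.FlatGroups
import Fermat.Agent.GB.B9.ProviderNew.LowerQ
import Fermat.Agent.GB.B9.ProviderNew.G3Q
import Fermat.Agent.GB.B9.ProviderNew.SupplySO
import Fermat.Agent.GB.B10.L.AnnG2

set_option autoImplicit false
set_option linter.unusedSectionVars false
set_option linter.unusedVariables false
set_option linter.style.haveILetI false

open WeierstrassCurve WeierstrassCurve.Affine.Point IsLocalRing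
open scoped WeierstrassCurve.Affine
open scoped MatrixGroups
open CongruenceSubgroup ModularCurve.Period CuspForm Polynomial

namespace Fermat.Agent.GB.B9.ProviderNew.NewGroups

open Fermat.Agent.GM.B
open Fermat.Agent.GB.B3.HeckeActH Fermat.Agent.GB.B3.RealLevel Fermat.Agent.GB.B3.Tower
  Fermat.Agent.GB.B3.TWChars Fermat.Agent.GB.B3.FinalTW Fermat.Agent.GB.B3.Plug
  Fermat.Agent.GB.B3.TWLevel Fermat.Agent.GB.B3.GamH Fermat.Agent.GB.B3.ChiLevelMulti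
  Fermat.Agent.GB.B3.Final
open Fermat.Agent.GJ.J2.Lat
open Fermat.Agent.GB.B4.Datum.ImageRing Fermat.Agent.GB.B4.Datum.TQFields
open Fermat.Agent.GB.Setup.SetupPkg
open Fermat.Agent.GB.Def.FramedNodes Fermat.Agent.GB.Def.LocGenInst
open Fermat.Agent.GB.B9.ThetaT Fermat.Agent.GB.B9.ThetaSupply
open Fermat.Agent.GB.B9.ProviderFlat Fermat.Agent.GB.B9.ProviderFlat.Lower
  Fermat.Agent.GB.B9.ProviderFlat.G1 Fermat.Agent.GB.B9.ProviderFlat.H1
  Fermat.Agent.GB.B9.ProviderFlat.Top Fermat.Agent.GB.B9.ProviderFlat.FlatGroups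
  Fermat.Agent.GB.B9.ProviderFlat.G3Level
open Fermat.Agent.GB.B9.ProviderNew.Top

/-- local instance (Prop-valued class) -/
local instance factPrimeOffNG {S : Set ℕ} (l : PrimesOff S) : Fact (l.1 : ℕ).Prime := ⟨l.1.2⟩

noncomputable section

variable {p : ℕ} [hpF : Fact p.Prime] {W : WeierstrassCurve ℤ}
  {hcard₁ : Nat.card (Submodule.torsionBy ℤ
    ((W.map (Int.castRingHom ℚ))⁄(AlgebraicClosure ℚ)).Point p) = p ^ 2}
  {hker : GaloisFactorsThroughFiniteLevel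
    (galoisRepModuleEnd (K := AlgebraicClosure ℚ) ℚ (W.map (Int.castRingHom ℚ)) p)}
  {M : ℕ}

/-- **the groups at ONE Taylor–Wiles set, `p`-new branch**. -/
theorem groupsOn_new {a : ℕ} {P : Pkg p W hcard₁ hker M a} {g n : ℕ} (Q : TWSet P g n)
    {q : ℕ} (hq : q.Prime) (hqM : q ∣ M) (hsq : Squarefree M) (hcong : p ^ a ∣ q - 1)
    (hp3 : p ≠ 3) (ha : 1 ≤ a) (hp5 : 5 ≤ p) (hpM : p ∣ M) (hqp : q ≠ p)
    (hno : ¬ W.IsResiduallyModularOfLevel p (M / q))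
    (hX : ¬ W.IsResiduallyModularOfLevel p (M / p))
    (hordbar : (GaloisRepAdic.ofResidualGaloisRep P.rhobar).IsOrdinaryAt p)
    {s : ℕ} {ℓs : Fin (s + 1) → ℕ} [Fact (ℓs (Fin.last s)).Prime] (E : FramedEnum P q s ℓs)
    (DQ : GaloisRep.DeformationRingData P.O P.rhobar
      (framedCond p (GaloisRep.strictOrdinaryCondition P.O p) P.Smin P.Su
        (Finset.univ.image Q.qv))) :
    Nonempty (GroupsOn P ℓs (GaloisRep.strictOrdinaryCondition P.O p) DQ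
      (LowerQ.twQ Q hq hqM hsq hcong hp3)) := by
  -- the forms level `N0new Q q * p`, `p ∥`
  haveI : NeZero (N0new Q q) := ⟨N0new_ne_zero Q hq hpM⟩
  haveI : NeZero (N0new Q q * p) := ⟨Nat.mul_ne_zero (N0new_ne_zero Q hq hpM) hpF.out.ne_zero⟩
  have hN'' : N0new Q q * p = Q.N * ∏ i : Fin (1 + g), rOf Q.qv q i := N0new_mul_p Q q hpM
  have hex : Fermat.Agent.GK.AL.ExactDvd p (N0new Q q * p) := exactDvd_new Q hq hsq hpM hqp
  -- the residual eigensystem at the forms level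
  obtain ⟨SQ, θQ, -, hpS, hNS, hbadS, hθT, hfrobQ, -⟩ :=
    Fermat.Agent.GB.Setup.PkgLevel.exists_thetaQ P (G3Q.dvd_level Q hN'')
  have hQN : Q.N ∣ N0new Q q * p := by
    rw [hN'']
    exact Dvd.intro _ rfl
  have hnd : ∀ l : PrimesOff (↑SQ : Set ℕ), ¬ (l.1 : ℕ) ∣ Q.N := G2Sym.hnd_Q Q hQN SQ hNS
  -- G2 : half-diamonds, the twisted action on the big level
  obtain ⟨dℓ, hdℓ⟩ := G2.exists_dl_theta (Q.primeData hq hqM hsq hcong) (1 + g)
    (Nat.le_of_eq (Nat.add_comm 1 g)) P.hp2 (↑SQ : Set ℕ) hnd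
  have hsym : ∀ l : PrimesOff (↑SQ : Set ℕ), ∃ i : Q.Sy.ι₁, Q.Sy.ℓ i = (l.1 : ℕ) ∧
      θQ (formsGenS (N0new Q q * p) (↑SQ : Set ℕ) l) = Q.lamTop (MvPolynomial.X (Sum.inl i)) :=
    G2Sym.hsym_Q Q hQN SQ hNS hpS hbadS θQ hθT
  have hev : ∀ t ∈ Q.𝔪, Q.lamTop t = 0 := G2Sym.hev_Q Q
  have key := G2.exists_twP_hecke Q.Sy Q.𝔪 (Q.primeData hq hqM hsq hcong) (Q.hyp hp3) 1 g
    (G7.TWSetG7.squarefree_N Q hsq) (Nat.le_of_eq (Nat.add_comm 1 g)) hN'' SQ hNS dℓ hdℓ hnd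
    Q.lamTop hev θQ hsym
  obtain ⟨twP, hι, hD, -, hlocP⟩ := key
  -- the instances on `M¹_Q × M^χ_Q`
  haveI := fact_locHyp Q hq hqM hsq hcong hp3 (LowerQ.hζpow P) (LowerQ.hζsub P) twP hD θQ hlocP
  haveI := Fermat.Agent.GB.B3.FreeLevelInst.finite_prod
    (twR Q hq hqM hsq hcong hp3 (LowerQ.hζpow P) (LowerQ.hζsub P))
  haveI := Fermat.Agent.GB.B3.FreeLevelInst.free_prod
    (twR Q hq hqM hsq hcong hp3 (LowerQ.hζpow P) (LowerQ.hζsub P))
  haveI := Fermat.Agent.GB.B3.FreeLevelInst.nontrivial_prod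
    (twR Q hq hqM hsq hcong hp3 (LowerQ.hζpow P) (LowerQ.hζsub P))
    (fun i => TWSet.Nfun_pos1 i) (Q.d1F_pos hq hqM hsq hcong hp3)
  have hqSu : q ∈ P.Su := E.last ▸ E.mem (Fin.last s)
  -- (ANN) for `LamNew` (helper44)
  have hAnn := Fermat.Agent.GB.B10.L.AnnG2.hAnn_tw1F_of_gen_G2 Q hq hqM hsq hcong hp3
    (LowerQ.hζpow P) (LowerQ.hζsub P) hpM hqp hN''
    (Fermat.Agent.GB.B10.L.StrictQNew.not_dvd_of_exactDvd hex) SQ hpS hNS hX dℓ hdℓ hnd twP hι hD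
  -- G3, strict-ordinary branch
  have key3 := Fermat.Agent.GB.B9.ProviderNew.G3Pkg.exists_psi_pkg_strict P
    (θQ := θQ)
    (tw := prodTw P.O (tw₁Q Q hq hqM hsq hcong hp3 (LowerQ.hζpow P) (LowerQ.hζsub P) twP hD)
      (twχQ Q hq hqM hsq hcong hp3 (LowerQ.hζpow P) (LowerQ.hζsub P) twP hD))
    hex (hside_new hp5 (N0new Q q)) hpS hNS hfrobQ hordbar hAnn Q.qv q hqSu
    (hNprimes_Q Q hq hqM hN'') (hexact_Q Q hq hsq hN'') DQ
  obtain ⟨ψ, hψl, ρQ, hψ, hequiv, hρ, hdet, hu0, hres⟩ := key3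
  have hu : ∀ v, v ≠ Fin.last s → ρQ.IsUnipotentOnInertiaAt (ℓs v) := fun v hv =>
    hu0 (ℓs v) (E.mem v) fun hvq => hv (E.inj (by rw [hvq, E.last]))
  exact groupsOn_of_twP Q hq hqM hsq hcong hp3 (LowerQ.hζpow P) (LowerQ.hζsub P) twP hD θQ
    ℓs E.last (GaloisRep.strictOrdinaryCondition P.O p) DQ hno hqp (LowerQ.hζne P ha)
    (P.mem_Su_iff.mp hqSu).2.2.2 hN'' hpS hNS hsym hfrobQ dℓ hdℓ hnd hι hlocP
    ψ hψl ρQ hψ hequiv hρ hdet hu hres

/-- **THE `p`-NEW GROUPS**: `ProviderNew.LowerQ.NewGroupsStmt`. -/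
theorem newGroups : Fermat.Agent.GB.B9.ProviderNew.LowerQ.NewGroupsStmt := by
  intro p _ W hcard₁ hker M q C a n' hfac hn' ha P s ℓ E Sig hSig g
  haveI : Fact (ℓ (Fin.last s)).Prime := ⟨E.prime _⟩
  intro n Q hTW3 DQ hΘ
  exact groupsOn_new Q C.hq C.hqM C.hsf (LowerQ.hcong_of_fac hfac) (LowerQ.hp3_of_hp5 C.hp5) ha
    C.hp5 C.hpM C.hqp C.hno C.hX
    (Fermat.Agent.GB.B9.ProviderNew.SupplySO.isOrdinaryAt_rhobar_pkg P C.hordbar) E DQ

end

end Fermat.Agent.GB.B9.ProviderNew.NewGroups
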